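/-
S41 / [IHARA-assembly] (helper73, second seat of C6; owner helper95): the API-independent half of
Ihara's lemma for `Γ = Γ₀(N)`, `Δ = Γ₀(N)[1/q]`.

* `exists_smul_of_forall_dvd` : the parabolic lattice `L = parabolicHoms ℤ Γ ℤ` is saturated in
  `Hom(Γ, ℤ)` (so `L / pL → Hom(Γ, 𝔽_p)` is injective);
* `CSPPlug`  : the consumer form of the congruence subgroup property for `Δ`;
* `ihara_congruence` : a pair `(x, y)` of homomorphisms `Γ → ℤ` with `x(g') + y(δ g' δ⁻¹) ≡ 0 mod p`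
  on `Γ₀(Nq)` is, modulo `p`, trivial on a principal congruence subgroup (gluing on the amalgam
  `Δ = Γ *_{Γ ∩ Γ^δ} Γ^δ` + `CSPPlug`);
* `EisStrictPlug` : the consumer form of "classes trivial on a congruence subgroup are strictly
  Eisenstein";
* `ihara_hI` : Ihara's lemma in the elementwise form consumed by `RibetAlgGlobal85` (`hI`) and
  `Ribet15` (`hIhara`).
-/
import Mathlib
import Fermat.Prelude.Def_ModularCurve_PeriodMap
import Fermat.Agent.S41.Amalgam95.Amalgam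

set_option autoImplicit false

namespace Fermat.Agent.S41.Ihara73

open ModularCurve.Period CongruenceSubgroup Fermat.Agent.S41.Amalgam95
open scoped MatrixGroups

/-! ### (I1) the parabolic lattice is saturated -/

/-- A homomorphism `Γ → ℤ` all of whose values are divisible by `p` is `p` times a
homomorphism. -/
theorem exists_smul_hom_of_forall_dvd {G : Type*} [AddGroup G] {p : ℤ}
    (ψ : G →+ ℤ) (h : ∀ γ, p ∣ ψ γ) : ∃ w : G →+ ℤ, ψ = p • w := by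
  refine ⟨{ toFun := fun γ => ψ γ / p, map_zero' := by simp, map_add' := ?_ }, ?_⟩
  · intro a b
    rw [map_add]
    exact Int.add_ediv_of_dvd_left (h a)
  · ext γ
    show ψ γ = p • (ψ γ / p)
    rw [smul_eq_mul, Int.mul_ediv_cancel' (h γ)]

/-- **(I1)** `L = parabolicHoms ℤ Γ ℤ` is saturated in `Hom(Γ, ℤ)`. -/
theorem exists_smul_of_forall_dvd (Γ : Subgroup SL(2, ℤ)) {p : ℤ} (hp : p ≠ 0)
    {ψ : Additive Γ →+ ℤ} (hψ : ψ ∈ parabolicHoms ℤ Γ ℤ) (h : ∀ γ, p ∣ ψ γ) :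
    ∃ w ∈ parabolicHoms ℤ Γ ℤ, ψ = p • w := by
  obtain ⟨w, hw⟩ := exists_smul_hom_of_forall_dvd ψ h
  refine ⟨w, ?_, hw⟩
  rw [mem_parabolicHoms_iff] at hψ ⊢
  intro γ hγ
  have h1 : ψ (Additive.ofMul γ) = 0 := hψ γ hγ
  rw [hw] at h1
  have h2 : p * w (Additive.ofMul γ) = 0 := h1
  rcases mul_eq_zero.1 h2 with h3 | h3
  · exact absurd h3 hp
  · exact h3

/-! ### (P-CSP) and (I2) -/

section Ihara

variable (N q p : ℕ) [hqp : Fact q.Prime]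

/-- **consumer form of [CSP]** for `Δ = Γ₀(N)[1/q]`: every homomorphism `Δ → 𝔽_p` is trivial on the
two copies `Γ(M) ∩ Γ₀(N)` and `δ (Γ(M) ∩ Γ₀(N)) δ⁻¹` of a principal congruence subgroup. -/
def CSPPlug : Prop :=
  ∀ φ : ↥(DeltaQ N q) →* Multiplicative (ZMod p), ∃ M : ℕ, 0 < M ∧
    ∀ g : ↥(Gamma0 N), ((g : SL(2, ℤ)) ∈ Gamma M) →
      φ ⟨castSL (g : _), castSL_mem_DeltaQ N q g⟩ = 1 ∧
      φ ⟨conjδ q (q_ne_zero q) (castSL (g : _)), conj_castSL_mem_DeltaQ N q g⟩ = 1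

/-- reduction mod `p` of a homomorphism `Γ → ℤ`, as a multiplicative homomorphism. -/
noncomputable def redHom {G : Type*} [Group G] (x : Additive G →+ ℤ) :
    G →* Multiplicative (ZMod p) :=
  AddMonoidHom.toMultiplicative ((Int.castAddHom (ZMod p)).comp x)

lemma redHom_apply {G : Type*} [Group G] (x : Additive G →+ ℤ) (g : G) :
    redHom p x g = Multiplicative.ofAdd ((x (Additive.ofMul g) : ℤ) : ZMod p) := rfl

lemma redHom_eq_one_iff {G : Type*} [Group G] (x : Additive G →+ ℤ) (g : G) :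
    redHom p x g = 1 ↔ (p : ℤ) ∣ x (Additive.ofMul g) := by
  rw [redHom_apply, ← ofAdd_zero, Multiplicative.ofAdd.apply_eq_iff_eq,
    ZMod.intCast_zmod_eq_zero_iff_dvd]

variable {N q p}

/-- **(I2) Ihara gluing + CSP.**  If `x(g') + y(δ g' δ⁻¹) ≡ 0 mod p` on `Γ₀(Nq)` (encoded as: for all
`g g' ∈ Γ₀(N)` with `g = δ g' δ⁻¹`), then `x` and `y` are trivial mod `p` on `Γ₀(N) ∩ Γ(M)` for some
`M > 0`. -/
theorem ihara_congruence (hqN : ¬ q ∣ N) (hCSP : CSPPlug N q p)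
    (x y : Additive ↥(Gamma0 N) →+ ℤ)
    (hxy : ∀ g g' : ↥(Gamma0 N),
      castSL (g : SL(2, ℤ)) = conjδ q (q_ne_zero q) (castSL (g' : SL(2, ℤ))) →
        (p : ℤ) ∣ x (Additive.ofMul g') + y (Additive.ofMul g)) :
    ∃ M : ℕ, 0 < M ∧ ∀ g : ↥(Gamma0 N), ((g : SL(2, ℤ)) ∈ Gamma M) →
      (p : ℤ) ∣ x (Additive.ofMul g) ∧ (p : ℤ) ∣ y (Additive.ofMul g) := by
  -- glue `(y mod p, -x mod p)`
  obtain ⟨φ, ⟨h1, h2⟩, -⟩ := ihara_glue N q hqN (redHom p y) (redHom p (-x)) (by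
    intro g g' hgg'
    rw [redHom_apply, redHom_apply, Multiplicative.ofAdd.apply_eq_iff_eq]
    have := hxy g g' hgg'
    rw [← ZMod.intCast_zmod_eq_zero_iff_dvd] at this
    push_cast at this
    rw [AddMonoidHom.neg_apply]
    push_cast
    linear_combination this)
  obtain ⟨M, hM, hker⟩ := hCSP φ
  refine ⟨M, hM, fun g hg => ?_⟩
  obtain ⟨hk1, hk2⟩ := hker g hg
  rw [h1 g, redHom_eq_one_iff] at hk1
  rw [h2 g, redHom_eq_one_iff, AddMonoidHom.neg_apply, dvd_neg] at hk2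
  exact ⟨hk2, hk1⟩

/-! ### (P-EIS) and (I3) -/

variable (N p)

/-- **consumer form of [EIS-STRICT]**: a `ℤ`-valued homomorphism on `Γ₀(N)` which is trivial mod `p`
on `Γ₀(N) ∩ Γ(M)` is a `T_ℓ`-eigenvector mod `p` with eigenvalue `ℓ + 1`, for every prime `ℓ`
outside a finite set depending only on `M` (and `N`, `p`). -/
def EisStrictPlug
    (T : ℕ → (Additive ↥(Gamma0 N) →+ ℤ) → (Additive ↥(Gamma0 N) →+ ℤ)) : Prop :=
  ∀ M : ℕ, 0 < M → ∃ B : Finset ℕ, ∀ ℓ : ℕ, ℓ.Prime → ℓ ∉ B →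
    ∀ x : Additive ↥(Gamma0 N) →+ ℤ,
      (∀ g : ↥(Gamma0 N), ((g : SL(2, ℤ)) ∈ Gamma M) → (p : ℤ) ∣ x (Additive.ofMul g)) →
      ∀ g : ↥(Gamma0 N),
        (p : ℤ) ∣ (T ℓ x) (Additive.ofMul g) - ((ℓ : ℤ) + 1) * x (Additive.ofMul g)

variable {N p}

/-- **(I3) Ihara's lemma, elementwise form.**  `x, y ∈ L = parabolicHoms ℤ Γ₀(N) ℤ` with
`α₁ x + α₂ y ∈ p · Hom(Γ₀(Nq), ℤ)` (hypothesis `hxy`) are Eisenstein modulo `p L`: outside a finite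
set of primes `ℓ`, `(T_ℓ - (ℓ+1)) x ∈ p L` and `(T_ℓ - (ℓ+1)) y ∈ p L`. -/
theorem ihara_hI (hqN : ¬ q ∣ N) (hp : p ≠ 0) (hCSP : CSPPlug N q p)
    (T : ℕ → (Additive ↥(Gamma0 N) →+ ℤ) → (Additive ↥(Gamma0 N) →+ ℤ))
    (hEis : EisStrictPlug N p T)
    (hTpar : ∀ (ℓ : ℕ) (x : Additive ↥(Gamma0 N) →+ ℤ),
      x ∈ parabolicHoms ℤ (Gamma0 N) ℤ → T ℓ x ∈ parabolicHoms ℤ (Gamma0 N) ℤ)
    {x y : Additive ↥(Gamma0 N) →+ ℤ}
    (hx : x ∈ parabolicHoms ℤ (Gamma0 N) ℤ) (hy : y ∈ parabolicHoms ℤ (Gamma0 N) ℤ)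
    (hxy : ∀ g g' : ↥(Gamma0 N),
      castSL (g : SL(2, ℤ)) = conjδ q (q_ne_zero q) (castSL (g' : SL(2, ℤ))) →
        (p : ℤ) ∣ x (Additive.ofMul g') + y (Additive.ofMul g)) :
    ∃ B : Finset ℕ, ∀ ℓ : ℕ, ℓ.Prime → ℓ ∉ B →
      (∃ w ∈ parabolicHoms ℤ (Gamma0 N) ℤ, T ℓ x - ((ℓ : ℤ) + 1) • x = (p : ℤ) • w) ∧
      (∃ w ∈ parabolicHoms ℤ (Gamma0 N) ℤ, T ℓ y - ((ℓ : ℤ) + 1) • y = (p : ℤ) • w) := by
  obtain ⟨M, hM, hker⟩ := ihara_congruence hqN hCSP x y hxy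
  obtain ⟨B, hB⟩ := hEis M hM
  have hp' : (p : ℤ) ≠ 0 := by exact_mod_cast hp
  refine ⟨B, fun ℓ hℓ hℓB => ⟨?_, ?_⟩⟩
  · refine exists_smul_of_forall_dvd (Gamma0 N) hp'
      (Submodule.sub_mem _ (hTpar ℓ x hx) (Submodule.smul_mem _ _ hx)) ?_
    intro γ
    exact hB ℓ hℓ hℓB x (fun g hg => (hker g hg).1) (Additive.toMul γ)
  · refine exists_smul_of_forall_dvd (Gamma0 N) hp'
      (Submodule.sub_mem _ (hTpar ℓ y hy) (Submodule.smul_mem _ _ hy)) ?_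
    intro γ
    exact hB ℓ hℓ hℓB y (fun g hg => (hker g hg).2) (Additive.toMul γ)

end Ihara

end Fermat.Agent.S41.Ihara73
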